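/-
GATE-J27 (S27) / A8 bridge, part 1 (helper47).  Mathlib only.

* `mul_inv_series` : `(1 − X A) · Σ_j X^j A^j = 1` over `R⟦X⟧`.
* `derivative_charpolyRev` : `d/dX det(1 − X A) = − det(1 − X A) · Σ_{j ≥ 0} tr(A^(j+1)) X^j`.
* `X_mul_derivative_charpolyRev` : the logarithmic-derivative form
  `X · d/dX det(1 − X A) = − det(1 − X A) · Σ_{j ≥ 1} tr(A^j) X^j`.
-/
import Mathlib

set_option autoImplicit false

noncomputable section

namespace Fermat.Agent.GJ27.Count.TraceLog

open Polynomial PowerSeries Matrix

variable {R : Type*} [CommRing R] {n : Type*} [Fintype n] [DecidableEq n]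

/-- `Σ_j X^j A^j` as a matrix of power series -/
def invSeries (A : Matrix n n R) : Matrix n n R⟦X⟧ :=
  fun a b => PowerSeries.mk fun j => (A ^ j) a b

/-- `1 − X A` as a matrix of power series -/
def oneSub (A : Matrix n n R) : Matrix n n R⟦X⟧ :=
  1 - (PowerSeries.X : R⟦X⟧) • A.map (PowerSeries.C)

theorem oneSub_mul_invSeries (A : Matrix n n R) : oneSub A * invSeries A = 1 := by
  ext a b j
  rw [oneSub, Matrix.sub_mul, Matrix.one_mul, Matrix.smul_mul, Matrix.sub_apply, Matrix.smul_apply,
    map_sub, smul_eq_mul]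
  rcases j with _ | j
  · rw [PowerSeries.coeff_zero_X_mul, sub_zero]
    simp only [invSeries, PowerSeries.coeff_mk, pow_zero]
    by_cases hab : a = b
    · subst hab; simp
    · simp [Matrix.one_apply_ne hab]
  · rw [PowerSeries.coeff_succ_X_mul, Matrix.mul_apply, map_sum]
    have h1 : ∀ c, PowerSeries.coeff j ((A.map PowerSeries.C) a c * invSeries A c b)
        = A a c * (A ^ j) c b := by
      intro c
      rw [Matrix.map_apply, PowerSeries.coeff_C_mul]
      simp [invSeries, PowerSeries.coeff_mk]
    simp only [h1]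
    rw [← Matrix.mul_apply, ← pow_succ']
    simp only [invSeries, PowerSeries.coeff_mk]
    by_cases hab : a = b
    · subst hab; simp
    · simp [Matrix.one_apply_ne hab]

theorem det_oneSub (A : Matrix n n R) : (oneSub A).det = (A.charpolyRev : R⟦X⟧) := by
  have h := RingHom.map_det (Polynomial.coeToPowerSeries.ringHom (R := R))
    (1 - (Polynomial.X : R[X]) • A.map Polynomial.C)
  rw [Matrix.charpolyRev]
  have h2 : (Polynomial.coeToPowerSeries.ringHom (R := R)).mapMatrix
      (1 - (Polynomial.X : R[X]) • A.map Polynomial.C) = oneSub A := by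
    refine Matrix.ext fun a b => ?_
    simp only [RingHom.mapMatrix_apply, Matrix.map_apply, oneSub, Matrix.sub_apply,
      Matrix.smul_apply, smul_eq_mul, Polynomial.coeToPowerSeries.ringHom_apply,
      Polynomial.coe_sub, Polynomial.coe_mul, Polynomial.coe_X, Polynomial.coe_C]
    congr 1
    by_cases hab : a = b
    · subst hab; simp
    · simp [Matrix.one_apply_ne hab]
  rw [h2] at h
  exact h.symm

/-- first-order expansion of `det (U + Y N)` at an invertible `U` -/
theorem coeff_one_det_add_X_smul {S : Type*} [CommRing S] (U V N : Matrix n n S)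
    (hUV : U * V = 1) :
    (det (U.map Polynomial.C + (Polynomial.X : S[X]) • N.map Polynomial.C)).coeff 1
      = U.det * (V * N).trace := by
  have h1 : U.map Polynomial.C + (Polynomial.X : S[X]) • N.map Polynomial.C
      = U.map Polynomial.C * (1 + (Polynomial.X : S[X]) • (V * N).map Polynomial.C) := by
    rw [Matrix.mul_add, Matrix.mul_one, Matrix.mul_smul]
    congr 2
    rw [← Matrix.map_mul, ← Matrix.mul_assoc, hUV, Matrix.one_mul]
  rw [h1, Matrix.det_mul]
  have h2 : (U.map Polynomial.C).det = Polynomial.C U.det :=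
    (RingHom.map_det Polynomial.C U).symm
  rw [h2, Polynomial.coeff_C_mul, Matrix.coeff_det_one_add_X_smul_one]

/-- **Jacobi's formula for `det (1 − X A)`.** -/
theorem derivative_charpolyRev (A : Matrix n n R) :
    ((Polynomial.derivative A.charpolyRev : R[X]) : R⟦X⟧)
      = - (A.charpolyRev : R⟦X⟧) * (invSeries A * A.map PowerSeries.C).trace := by
  let Φ : R[X] →+* (R⟦X⟧)[X] :=
    (Polynomial.compRingHom ((Polynomial.X : (R⟦X⟧)[X]) + Polynomial.C (PowerSeries.X : R⟦X⟧))).comp
      (Polynomial.mapRingHom (PowerSeries.C : R →+* R⟦X⟧))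
  have hΦ : ∀ p : R[X], (Φ p).coeff 1 = ((Polynomial.derivative p : R[X]) : R⟦X⟧) := by
    intro p
    show ((p.map PowerSeries.C).comp (Polynomial.X + Polynomial.C PowerSeries.X)).coeff 1 = _
    rw [← Polynomial.taylor_apply, Polynomial.taylor_coeff_one, Polynomial.derivative_map,
      Polynomial.eval_map, Polynomial.eval₂_C_X_eq_coe]
  have hmat : Φ.mapMatrix (1 - (Polynomial.X : R[X]) • A.map Polynomial.C)
      = (oneSub A).map Polynomial.C
        + (Polynomial.X : (R⟦X⟧)[X]) • (-(A.map PowerSeries.C)).map Polynomial.C := by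
    refine Matrix.ext fun a b => ?_
    have hX : Φ Polynomial.X = Polynomial.X + Polynomial.C PowerSeries.X := by
      simp [Φ]
    have hC : ∀ r : R, Φ (Polynomial.C r) = Polynomial.C (PowerSeries.C r) := by
      intro r; simp [Φ]
    simp only [RingHom.mapMatrix_apply, Matrix.map_apply, Matrix.sub_apply, Matrix.smul_apply,
      smul_eq_mul, map_sub, map_mul, hX, hC, oneSub, Matrix.add_apply, Matrix.neg_apply,
      Polynomial.C_neg]
    have h1 : Φ ((1 : Matrix n n R[X]) a b) = Polynomial.C ((1 : Matrix n n R⟦X⟧) a b) := by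
      by_cases hab : a = b
      · subst hab; simp
      · simp [Matrix.one_apply_ne hab]
    rw [h1]
    ring
  have key : (Φ A.charpolyRev).coeff 1
      = (oneSub A).det * (invSeries A * -(A.map PowerSeries.C)).trace := by
    rw [Matrix.charpolyRev, RingHom.map_det, hmat,
      coeff_one_det_add_X_smul _ (invSeries A) _ (oneSub_mul_invSeries A)]
  rw [← hΦ, key, det_oneSub, Matrix.mul_neg, Matrix.trace_neg]
  ring

/-- the coefficients of `tr ((Σ X^j A^j) A)` -/
theorem coeff_trace_invSeries_mul (A : Matrix n n R) (j : ℕ) :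
    PowerSeries.coeff j (invSeries A * A.map PowerSeries.C).trace = (A ^ (j + 1)).trace := by
  rw [Matrix.trace, map_sum, pow_succ, Matrix.trace]
  refine Finset.sum_congr rfl fun a _ => ?_
  rw [Matrix.diag_apply, Matrix.diag_apply, Matrix.mul_apply, Matrix.mul_apply, map_sum]
  refine Finset.sum_congr rfl fun c _ => ?_
  rw [Matrix.map_apply, mul_comm, PowerSeries.coeff_C_mul, mul_comm]
  simp [invSeries, PowerSeries.coeff_mk]

/-- **Logarithmic derivative of `det (1 − X A)`.** -/
theorem X_mul_derivative_charpolyRev (A : Matrix n n R) :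
    (PowerSeries.X : R⟦X⟧) * PowerSeries.derivative R (A.charpolyRev : R⟦X⟧)
      = - (A.charpolyRev : R⟦X⟧)
        * PowerSeries.mk (fun j => if j = 0 then 0 else (A ^ j).trace) := by
  rw [PowerSeries.derivative_coe, derivative_charpolyRev]
  have h : (PowerSeries.X : R⟦X⟧) * (invSeries A * A.map PowerSeries.C).trace
      = PowerSeries.mk (fun j => if j = 0 then 0 else (A ^ j).trace) := by
    ext j
    rcases j with _ | j
    · simp
    · rw [PowerSeries.coeff_succ_X_mul, PowerSeries.coeff_mk, if_neg (Nat.succ_ne_zero j),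
        coeff_trace_invSeries_mul]
  rw [← h]
  ring

end Fermat.Agent.GJ27.Count.TraceLog
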