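/-
GATE-J27 (S27) / A8 bridge, part 2 (helper47).  Mathlib only.

* `exists_matrix_charpolyRev` : every `L : R[X]` with `L.coeff 0 = 1` is `det (1 − X M)` for a
  square matrix `M` of size `L.natDegree` (multiplication by the root on `R[X]/(L.reverse)`),
  `det M = (−1)^deg · leadingCoeff L`.
* `eval_one_charpolyRev` : `(det (1 − X A))(1) = det (1 − A)`.
* `exists_matrix_of_zeta` : **the bridge A2 + A4 → A5**.  If for every `n ≥ 1` the series `Z_n`
  (constant coefficient `1`, logarithmic derivative `Σ_j N_{nj} X^j`) satisfies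
  `(1 − X)(1 − qⁿ X) Z_n = L_n` with `L_n` a polynomial, `deg L_1 = 2g`, leading coefficient `q^g`,
  then there is ONE integer matrix `M` of size `2g`, `det M = q^g`, with `L_n = det (1 − X Mⁿ)`,
  `L_n(1) = det (1 − Mⁿ)` and `N_j = 1 + q^j − tr M^j`.
(uniqueness of the solution of `X F' = F C` and the logarithmic-derivative calculus are helper94's,
`GJ27/ZCombExtra.lean`.)
-/
import Mathlib
import Fermat.Agent.GJ27.Count.TraceLog
import Fermat.Agent.GJ27.ZCombExtra

set_option autoImplicit false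

noncomputable section

namespace Fermat.Agent.GJ27.Count.Bridge

open Polynomial Matrix

section CM

variable {R : Type*} [CommRing R]

/-- the minimal polynomial of the root of a monic polynomial `P` in `R[X]/(P)` is `P` -/
theorem minpoly_root_of_monic [Nontrivial R] {P : R[X]} (hP : P.Monic) :
    minpoly R (AdjoinRoot.root P) = P := by
  symm
  apply minpoly.unique' R (AdjoinRoot.root P) hP
  · rw [AdjoinRoot.aeval_eq, AdjoinRoot.mk_self]
  · intro q hq
    by_cases hq0 : q = 0
    · exact Or.inl hq0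
    · right
      rw [AdjoinRoot.aeval_eq, Ne, AdjoinRoot.mk_eq_zero]
      intro hdvd
      exact hP.not_dvd_of_degree_lt hq0 hq hdvd

/-- **(CM)** a polynomial with constant coefficient `1` is a reversed characteristic polynomial -/
theorem exists_matrix_charpolyRev [Nontrivial R] (L : R[X]) (hL0 : L.coeff 0 = 1) :
    ∃ M : Matrix (Fin L.natDegree) (Fin L.natDegree) R,
      M.charpolyRev = L ∧ M.det = (-1) ^ L.natDegree * L.leadingCoeff := by
  have hL0' : L.coeff 0 ≠ 0 := by rw [hL0]; exact one_ne_zero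
  have htd : L.natTrailingDegree = 0 := by
    rw [Polynomial.natTrailingDegree_eq_zero]
    exact Or.inr hL0'
  set P := L.reverse with hPdef
  have hPdeg : P.natDegree = L.natDegree := by
    rw [hPdef, Polynomial.reverse_natDegree, htd, Nat.sub_zero]
  have hPmonic : P.Monic := by
    rw [Polynomial.Monic, hPdef, Polynomial.reverse_leadingCoeff, Polynomial.trailingCoeff, htd, hL0]
  have hPrev : P.reverse = L := by
    rw [Polynomial.reverse, hPdeg, hPdef, Polynomial.reverse, Polynomial.reflect_reflect]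
  have hP0 : P.coeff 0 = L.leadingCoeff := by
    rw [hPdef, Polynomial.coeff_zero_reverse]
  let pb := AdjoinRoot.powerBasis' hPmonic
  let M₀ : Matrix (Fin pb.dim) (Fin pb.dim) R := Algebra.leftMulMatrix pb.basis pb.gen
  have hM₀ : M₀.charpoly = P := by
    rw [_root_.charpoly_leftMulMatrix pb]
    exact minpoly_root_of_monic hPmonic
  have hdim : pb.dim = L.natDegree := hPdeg
  let e : Fin pb.dim ≃ Fin L.natDegree := finCongr hdim
  refine ⟨Matrix.reindex e e M₀, ?_, ?_⟩
  · rw [← Matrix.reverse_charpoly, Matrix.charpoly_reindex, hM₀, hPrev]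
  · rw [Matrix.det_eq_sign_charpoly_coeff, Matrix.charpoly_reindex, hM₀, hP0, Fintype.card_fin]

/-- `(det (1 − X A))(1) = det (1 − A)` -/
theorem eval_one_charpolyRev {n : Type*} [DecidableEq n] [Fintype n] (A : Matrix n n R) :
    A.charpolyRev.eval 1 = (1 - A).det := by
  rw [Matrix.charpolyRev, ← Polynomial.coe_evalRingHom, RingHom.map_det]
  congr 1
  ext i j
  simp only [RingHom.mapMatrix_apply, Matrix.map_apply, Matrix.sub_apply, Matrix.smul_apply,
    Matrix.one_apply, Polynomial.coe_evalRingHom, smul_eq_mul, Polynomial.eval_sub,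
    Polynomial.eval_mul, Polynomial.eval_X, Polynomial.eval_C, one_mul]
  split_ifs <;> simp

/-- the constant coefficient of `det (1 − X A)` is `1` -/
theorem constantCoeff_charpolyRev {n : Type*} [DecidableEq n] [Fintype n] (A : Matrix n n R) :
    PowerSeries.constantCoeff (A.charpolyRev : PowerSeries R) = 1 := by
  rw [← PowerSeries.coeff_zero_eq_constantCoeff_apply, Polynomial.coeff_coe,
    Polynomial.coeff_zero_eq_eval_zero, Matrix.eval_charpolyRev]

end CM

section Zeta

open Fermat.Agent.GJ27.ZComb PowerSeries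

/-- the series `Σ_{j ≥ 1} tr(A^j) X^j` -/
def trSeries {n : Type*} [DecidableEq n] [Fintype n] (A : Matrix n n ℤ) : PowerSeries ℤ :=
  PowerSeries.mk fun j => if j = 0 then 0 else (A ^ j).trace

theorem X_mul_derivative_charpolyRev' {n : Type*} [DecidableEq n] [Fintype n] (A : Matrix n n ℤ) :
    (PowerSeries.X : PowerSeries ℤ) * d⁄dX ℤ (A.charpolyRev : PowerSeries ℤ) =
      (A.charpolyRev : PowerSeries ℤ) * (- trSeries A) := by
  rw [TraceLog.X_mul_derivative_charpolyRev, trSeries]
  ring

/-- the Euler factor at the two trivial eigenvalues -/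
def eulerTriv (a : ℤ) : PowerSeries ℤ :=
  (1 - PowerSeries.X) * (1 - PowerSeries.C a * PowerSeries.X)

theorem X_mul_derivative_eulerTriv (a : ℤ) :
    (PowerSeries.X : PowerSeries ℤ) * d⁄dX ℤ (eulerTriv a) =
      eulerTriv a * (linLog (1 : ℤ) + linLog a) := by
  have h1 := X_mul_derivative_one_sub (R := ℤ) 1
  rw [map_one, one_mul] at h1
  exact X_mul_derivative_mul h1 (X_mul_derivative_one_sub a)

theorem constantCoeff_eulerTriv (a : ℤ) : PowerSeries.constantCoeff (eulerTriv a) = 1 := by
  simp [eulerTriv]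

/-- **The bridge.** -/
theorem exists_matrix_of_zeta (q : ℤ) (g : ℕ) (N : ℕ → ℤ)
    (Zs : ℕ → PowerSeries ℤ) (Ls : ℕ → Polynomial ℤ)
    (hZ0 : ∀ n, 0 < n → PowerSeries.constantCoeff (Zs n) = 1)
    (hZ : ∀ n, 0 < n → (PowerSeries.X : PowerSeries ℤ) * d⁄dX ℤ (Zs n) =
      Zs n * PowerSeries.mk fun j => if j = 0 then 0 else N (n * j))
    (hL : ∀ n, 0 < n → eulerTriv (q ^ n) * Zs n = (Ls n : PowerSeries ℤ))
    (hdeg : (Ls 1).natDegree = 2 * g) (hlead : (Ls 1).leadingCoeff = q ^ g) :
    ∃ M : Matrix (Fin (2 * g)) (Fin (2 * g)) ℤ, M.det = q ^ g ∧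
      (∀ j, 0 < j → N j = 1 + q ^ j - (M ^ j).trace) ∧
      ∀ n, 0 < n → Ls n = (M ^ n).charpolyRev ∧ (Ls n).eval 1 = (1 - M ^ n).det := by
  -- constant coefficients
  have hLc : ∀ n, 0 < n → PowerSeries.constantCoeff (Ls n : PowerSeries ℤ) = 1 := fun n hn => by
    rw [← hL n hn, map_mul, constantCoeff_eulerTriv, hZ0 n hn, one_mul]
  have hL0 : (Ls 1).coeff 0 = 1 := by
    have := hLc 1 one_pos
    rwa [← PowerSeries.coeff_zero_eq_constantCoeff_apply, Polynomial.coeff_coe] at this
  -- the matrix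
  obtain ⟨M, hMrev, hMdet⟩ : ∃ M : Matrix (Fin (2 * g)) (Fin (2 * g)) ℤ,
      M.charpolyRev = Ls 1 ∧ M.det = q ^ g := by
    have h := exists_matrix_charpolyRev (Ls 1) hL0
    rw [hdeg] at h
    obtain ⟨M, h1, h2⟩ := h
    refine ⟨M, h1, ?_⟩
    rw [h2, hlead, pow_mul, neg_one_sq, one_pow, one_mul]
  -- logarithmic derivative of `L_n`
  have hLlog : ∀ n, 0 < n → (PowerSeries.X : PowerSeries ℤ) * d⁄dX ℤ (Ls n : PowerSeries ℤ) =
      (Ls n : PowerSeries ℤ) * ((linLog (1 : ℤ) + linLog (q ^ n)) +
        PowerSeries.mk fun j => if j = 0 then 0 else N (n * j)) := fun n hn => by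
    rw [← hL n hn]
    exact X_mul_derivative_mul (X_mul_derivative_eulerTriv (q ^ n)) (hZ n hn)
  -- `N_j = 1 + q^j − tr M^j`
  have hN : ∀ j, 0 < j → N j = 1 + q ^ j - (M ^ j).trace := by
    intro j hj
    have h1 := hLlog 1 one_pos
    have h2 := X_mul_derivative_charpolyRev' M
    rw [hMrev, h1] at h2
    have hne : (Ls 1 : PowerSeries ℤ) ≠ 0 := by
      intro h0
      have := hLc 1 one_pos
      rw [h0, map_zero] at this
      exact zero_ne_one this
    have h3 := mul_left_cancel₀ hne h2
    have h4 := congrArg (PowerSeries.coeff j) h3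
    rw [map_add, map_add, coeff_linLog, coeff_linLog, PowerSeries.coeff_mk, map_neg, trSeries,
      PowerSeries.coeff_mk, if_neg hj.ne', if_neg hj.ne', if_neg hj.ne', if_neg hj.ne', one_mul,
      one_pow, pow_one] at h4
    linarith
  refine ⟨M, hMdet, hN, fun n hn => ?_⟩
  have hEq : (Ls n : PowerSeries ℤ) = ((M ^ n).charpolyRev : PowerSeries ℤ) := by
    have hC0 : PowerSeries.constantCoeff (- trSeries (M ^ n)) = 0 := by
      rw [map_neg, trSeries, ← PowerSeries.coeff_zero_eq_constantCoeff_apply, PowerSeries.coeff_mk,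
        if_pos rfl, neg_zero]
    refine eq_of_X_mul_derivative_eq hC0 ?_ ?_ (X_mul_derivative_charpolyRev' (M ^ n))
    · rw [hLc n hn, constantCoeff_charpolyRev]
    · rw [hLlog n hn]
      congr 1
      ext j
      rw [map_add, map_add, coeff_linLog, coeff_linLog, PowerSeries.coeff_mk, map_neg, trSeries,
        PowerSeries.coeff_mk]
      rcases Nat.eq_zero_or_pos j with rfl | hj
      · simp
      · rw [if_neg hj.ne', if_neg hj.ne', if_neg hj.ne', if_neg hj.ne',
          hN (n * j) (Nat.mul_pos hn hj), one_pow, ← pow_mul, ← pow_mul]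
        ring
  have hEq' : Ls n = (M ^ n).charpolyRev := Polynomial.coe_injective ℤ hEq
  exact ⟨hEq', by rw [hEq', eval_one_charpolyRev]⟩

end Zeta

end Fermat.Agent.GJ27.Count.Bridge
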