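/-
GATE-J27 (S27) / A8, part 3 (helper47).  Mathlib + helper27's A7 (`GJ27/Grp`).

**The `ℓ`-primary wrapper** between the arithmetic of the class groups (A4, A5, A6) and the abstract
group theory A7.  `P` an additive commutative group (`Pic⁰`), `f : AddMonoid.End P` (Frobenius) with
finite fixed groups `fixPow f n`, all of whose elements are periodic.  On `T := prim P ℓ`, the
`ℓ`-primary part, `f` induces `primEnd ℓ f`, and

* `card_fixPow_primEnd`  : `#T^{f^n} = ℓ ^ v_ℓ(#P^{f^n})` (the Sylow count);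
* `exists_norm_prim`     : norms are still onto on `T` (Bezout idempotent);
* `torsEquiv`            : `T[ℓ^k] ≃ P[ℓ^k]`;
* `frobGrowth_prim`      : helper27's `FrobGrowth` on `T` from the corresponding facts on `P`;
* `card_tors_of_growth`  : hence `#P[ℓ^k] = ℓ^(r k)`.
-/
import Mathlib
import Fermat.Agent.GJ27.Grp.Main

set_option autoImplicit false

noncomputable section

namespace Fermat.Agent.GJ27.Count.Primary

open Fermat.Agent.GJ27.Grp

/-! ### the Sylow count in a finite commutative additive group -/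

theorem card_primary_of_finite (G : Type*) [AddCommGroup G] [Finite G] (ℓ : ℕ) [Fact ℓ.Prime] :
    Nat.card {x : G // ∃ k : ℕ, (ℓ ^ k) • x = 0} = ℓ ^ (Nat.card G).factorization ℓ := by
  obtain ⟨Q, hQ⟩ :=
    (CommGroup.primaryComponent.isPGroup (G := Multiplicative G) (p := ℓ)).exists_le_sylow
  have hQC : (Q : Subgroup (Multiplicative G)) = CommGroup.primaryComponent (Multiplicative G) ℓ := by
    apply le_antisymm
    · intro g hg
      obtain ⟨k, hk⟩ := Q.isPGroup' ⟨g, hg⟩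
      rw [CommGroup.mem_primaryComponent]
      refine ⟨k, ?_⟩
      have := congrArg Subtype.val hk
      simpa using this
    · exact hQ
  have h1 : Nat.card (CommGroup.primaryComponent (Multiplicative G) ℓ) =
      ℓ ^ (Nat.card G).factorization ℓ := by
    rw [← hQC]
    have := Q.card_eq_multiplicity
    rwa [Nat.card_congr (Multiplicative.toAdd (α := G))] at this
  rw [← h1]
  refine Nat.card_congr ?_
  refine
    { toFun := fun x => ⟨Multiplicative.ofAdd x.1, ?_⟩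
      invFun := fun y => ⟨Multiplicative.toAdd y.1, ?_⟩
      left_inv := fun x => rfl
      right_inv := fun y => rfl }
  · obtain ⟨k, hk⟩ := x.2
    rw [CommGroup.mem_primaryComponent]
    refine ⟨k, ?_⟩
    rw [← ofAdd_nsmul, hk, ofAdd_zero]
  · obtain ⟨k, hk⟩ := CommGroup.mem_primaryComponent.mp y.2
    refine ⟨k, ?_⟩
    rw [← toAdd_pow, hk, toAdd_one]

variable {P : Type*} [AddCommGroup P]

theorem card_primary_of_addSubgroup (H : AddSubgroup P) [Finite H] (ℓ : ℕ) [Fact ℓ.Prime] :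
    Nat.card {x : P // x ∈ H ∧ ∃ k : ℕ, (ℓ ^ k) • x = 0} = ℓ ^ (Nat.card H).factorization ℓ := by
  rw [← card_primary_of_finite H ℓ]
  refine Nat.card_congr ?_
  refine
    { toFun := fun x => ⟨⟨x.1, x.2.1⟩, ?_⟩
      invFun := fun y => ⟨y.1.1, y.1.2, ?_⟩
      left_inv := fun x => rfl
      right_inv := fun y => rfl }
  · obtain ⟨k, hk⟩ := x.2.2
    exact ⟨k, Subtype.ext (by simpa using hk)⟩
  · obtain ⟨k, hk⟩ := y.2
    exact ⟨k, by simpa using congrArg Subtype.val hk⟩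

/-! ### the `ℓ`-primary part -/

variable (P) in
/-- the `ℓ`-primary part of `P` -/
def prim (ℓ : ℕ) : AddSubgroup P where
  carrier := {x | ∃ k : ℕ, (ℓ ^ k) • x = 0}
  zero_mem' := ⟨0, by simp⟩
  add_mem' := by
    rintro x y ⟨a, ha⟩ ⟨b, hb⟩
    refine ⟨a + b, ?_⟩
    have hx : (ℓ ^ (a + b)) • x = 0 := by rw [pow_add, mul_comm, mul_smul, ha, smul_zero]
    have hy : (ℓ ^ (a + b)) • y = 0 := by rw [pow_add, mul_smul, hb, smul_zero]
    rw [smul_add, hx, hy, add_zero]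
  neg_mem' := by
    rintro x ⟨a, ha⟩
    exact ⟨a, by rw [smul_neg, ha, neg_zero]⟩

theorem mem_prim {ℓ : ℕ} {x : P} : x ∈ prim P ℓ ↔ ∃ k : ℕ, (ℓ ^ k) • x = 0 := Iff.rfl

variable (ℓ : ℕ) (f : AddMonoid.End P)

/-- `f` restricted to the `ℓ`-primary part -/
def primEnd : AddMonoid.End (prim P ℓ) :=
  AddMonoidHom.mk' (fun x => ⟨f x.1, by
    obtain ⟨k, hk⟩ := x.2
    exact ⟨k, by rw [← map_nsmul, hk, map_zero]⟩⟩)
    (fun x y => Subtype.ext (map_add f x.1 y.1))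

theorem coe_primEnd (x : prim P ℓ) : ((primEnd ℓ f x : prim P ℓ) : P) = f x.1 := rfl

theorem coe_primEnd_pow (n : ℕ) (x : prim P ℓ) :
    (((primEnd ℓ f ^ n) x : prim P ℓ) : P) = (f ^ n) x.1 := by
  induction n with
  | zero => rw [pow_zero, pow_zero, end_one_apply, end_one_apply]
  | succ n ih => rw [end_pow_succ_apply, end_pow_succ_apply, coe_primEnd, ih]

theorem mem_fixPow_primEnd {n : ℕ} {x : prim P ℓ} :
    x ∈ fixPow (primEnd ℓ f) n ↔ x.1 ∈ fixPow f n := by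
  rw [mem_fixPow, mem_fixPow, Subtype.ext_iff, coe_primEnd_pow]

theorem coe_normEnd_primEnd (n m : ℕ) (x : prim P ℓ) :
    ((normEnd (primEnd ℓ f) n m x : prim P ℓ) : P) = normEnd f n m x.1 := by
  rw [normEnd_apply, normEnd_apply, AddSubgroup.val_finsetSum]
  exact Finset.sum_congr rfl fun i _ => coe_primEnd_pow ℓ f _ x

/-- **the Sylow count on the primary part** -/
theorem card_fixPow_primEnd [Fact ℓ.Prime] (n : ℕ) (hfin : (fixPow f n : Set P).Finite) :
    Nat.card (fixPow (primEnd ℓ f) n) = ℓ ^ (Nat.card (fixPow f n)).factorization ℓ := by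
  have : Finite (fixPow f n) := hfin
  rw [← card_primary_of_addSubgroup (fixPow f n) ℓ]
  refine Nat.card_congr ?_
  refine
    { toFun := fun x => ⟨x.1.1, (mem_fixPow_primEnd ℓ f).mp x.2, x.1.2⟩
      invFun := fun y => ⟨⟨y.1, y.2.2⟩, (mem_fixPow_primEnd ℓ f).mpr y.2.1⟩
      left_inv := fun x => rfl
      right_inv := fun y => rfl }

/-- `T[ℓ^k] ≃ P[ℓ^k]` -/
def torsEquiv (k : ℕ) : tors (prim P ℓ) ℓ k ≃ tors P ℓ k where
  toFun x := ⟨x.1.1, by
    have h := congrArg Subtype.val (mem_tors.mp x.2)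
    rw [AddSubgroup.coe_nsmul] at h
    exact mem_tors.mpr h⟩
  invFun y := ⟨⟨y.1, k, mem_tors.mp y.2⟩, mem_tors.mpr (Subtype.ext (by
    rw [AddSubgroup.coe_nsmul]
    exact mem_tors.mp y.2))⟩
  left_inv x := rfl
  right_inv y := rfl

theorem normEnd_zsmul (n m : ℕ) (e : ℤ) (y : P) : normEnd f n m (e • y) = e • normEnd f n m y :=
  map_zsmul _ _ _

/-- **norms stay onto on the primary part** -/
theorem exists_norm_prim [Fact ℓ.Prime] {n m : ℕ}
    (hfin : (fixPow f (n * m) : Set P).Finite)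
    {x : P} (hxℓ : x ∈ prim P ℓ)
    {y : P} (hy : y ∈ fixPow f (n * m)) (hyx : normEnd f n m y = x) :
    ∃ y' : P, y' ∈ prim P ℓ ∧ y' ∈ fixPow f (n * m) ∧ normEnd f n m y' = x := by
  have : Finite (fixPow f (n * m)) := hfin
  obtain ⟨a, ha⟩ := hxℓ
  set h := Nat.card (fixPow f (n * m)) with hh
  have hpos : h ≠ 0 := Nat.card_pos.ne'
  have hhy : h • y = 0 := by
    have h2 : ((h • (⟨y, hy⟩ : fixPow f (n * m)) : fixPow f (n * m)) : P) = 0 := by
      rw [hh, card_nsmul_eq_zero']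
      rfl
    rwa [AddSubgroup.coe_nsmul] at h2
  set v := h.factorization ℓ with hv
  set u := h / ℓ ^ v with hu
  have hprime : ℓ.Prime := Fact.out
  have hhu : ℓ ^ v * u = h := Nat.ordProj_mul_ordCompl_eq_self h ℓ
  have hcop : Nat.Coprime u (ℓ ^ a) := by
    apply Nat.Coprime.pow_right
    exact (Nat.coprime_ordCompl hprime hpos).symm
  -- Bezout
  have hbez : (u : ℤ) * Nat.gcdA u (ℓ ^ a) + ((ℓ ^ a : ℕ) : ℤ) * Nat.gcdB u (ℓ ^ a) = 1 := by
    have := Nat.gcd_eq_gcd_ab u (ℓ ^ a)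
    rw [hcop.gcd_eq_one] at this
    exact_mod_cast this.symm
  set e : ℤ := (u : ℤ) * Nat.gcdA u (ℓ ^ a) with he
  have hex : e • x = x := by
    have h1 : e = 1 - ((ℓ ^ a : ℕ) : ℤ) * Nat.gcdB u (ℓ ^ a) := by rw [he]; linarith
    rw [h1, sub_smul, one_smul, mul_comm, mul_smul, natCast_zsmul, ha, smul_zero, sub_zero]
  refine ⟨e • y, ⟨v, ?_⟩, ?_, ?_⟩
  · rw [he, mul_comm, mul_smul, natCast_zsmul, smul_comm, ← mul_smul, hhu, hhy, smul_zero]
  · rw [mem_fixPow, map_zsmul, mem_fixPow.mp hy]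
  · rw [normEnd_zsmul, hyx, hex]

/-- **helper27's `FrobGrowth` on the `ℓ`-primary part.** -/
theorem frobGrowth_prim [Fact ℓ.Prime] (m₀ c r : ℕ) (hm₀ : 0 < m₀)
    (hunion : ∀ x : P, ∃ n : ℕ, 0 < n ∧ x ∈ fixPow f n)
    (hfinite : ∀ n : ℕ, 0 < n → (fixPow f n : Set P).Finite)
    (hcard : ∀ m j : ℕ, 0 < m → m.Coprime ℓ →
      (Nat.card (fixPow f (m₀ * m * ℓ ^ j))).factorization ℓ = c + r * j)
    (hnorm : ∀ n m : ℕ, 0 < n → 0 < m → ∀ x ∈ fixPow f n,
      ∃ y ∈ fixPow f (n * m), normEnd f n m y = x) :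
    FrobGrowth (prim P ℓ) (primEnd ℓ f) ℓ m₀ c r where
  m₀_pos := hm₀
  primary := fun x => by
    obtain ⟨k, hk⟩ := x.2
    exact ⟨k, Subtype.ext (by simpa using hk)⟩
  union := fun x => by
    obtain ⟨n, hn, hx⟩ := hunion x.1
    exact ⟨n, hn, (mem_fixPow_primEnd ℓ f).mpr hx⟩
  finite := fun n hn => by
    have h1 : ((fixPow f n : Set P).preimage ((↑) : prim P ℓ → P)).Finite :=
      (hfinite n hn).preimage Subtype.val_injective.injOn
    refine h1.subset fun x hx => ?_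
    exact (mem_fixPow_primEnd ℓ f).mp hx
  card := fun m j hm hcop => by
    have hpos : 0 < m₀ * m * ℓ ^ j :=
      Nat.mul_pos (Nat.mul_pos hm₀ hm) (pow_pos (Fact.out : ℓ.Prime).pos _)
    rw [card_fixPow_primEnd ℓ f _ (hfinite _ hpos), hcard m j hm hcop]
  norm := fun n m hn hm x hx => by
    obtain ⟨y, hy, hyx⟩ := hnorm n m hn hm x.1 ((mem_fixPow_primEnd ℓ f).mp hx)
    obtain ⟨y', hy'ℓ, hy', hy'x⟩ :=
      exists_norm_prim ℓ f (hfinite _ (Nat.mul_pos hn hm)) x.2 hy hyx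
    refine ⟨⟨y', hy'ℓ⟩, (mem_fixPow_primEnd ℓ f).mpr hy', Subtype.ext ?_⟩
    rw [coe_normEnd_primEnd]
    exact hy'x

/-- **A7 for a non-primary group**: `#P[ℓ^k] = ℓ^(r k)`. -/
theorem card_tors_of_growth [Fact ℓ.Prime] (m₀ c r : ℕ) (hm₀ : 0 < m₀)
    (hunion : ∀ x : P, ∃ n : ℕ, 0 < n ∧ x ∈ fixPow f n)
    (hfinite : ∀ n : ℕ, 0 < n → (fixPow f n : Set P).Finite)
    (hcard : ∀ m j : ℕ, 0 < m → m.Coprime ℓ →
      (Nat.card (fixPow f (m₀ * m * ℓ ^ j))).factorization ℓ = c + r * j)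
    (hnorm : ∀ n m : ℕ, 0 < n → 0 < m → ∀ x ∈ fixPow f n,
      ∃ y ∈ fixPow f (n * m), normEnd f n m y = x)
    (k : ℕ) : Nat.card (tors P ℓ k) = ℓ ^ (r * k) := by
  rw [← (frobGrowth_prim ℓ f m₀ c r hm₀ hunion hfinite hcard hnorm).card_tors k]
  exact (Nat.card_congr (torsEquiv ℓ k)).symm

end Fermat.Agent.GJ27.Count.Primary
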