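/-
GATE-J27 (S27) / A8 = GJ27-COUNT, the assembly (helper47).

`CountStmt` (the count `#Pic⁰(Ft)[ℓ^n] = ℓ^(2gn)` over an algebraic closure of a finite field) from
the two node statements that are still owed in the frame:

* `LPolyStmt Φ g hfin` (A4, on A1 + A3): `(1 − X)(1 − qX) Z_Φ(X) = L(X)`, `L ∈ ℤ[X]`, `deg L = 2g`,
  leading coefficient `q^g`, `L(1) = #Pic⁰(Ft)^Φ`;
* `NormStmt Φ` (A6): the norms `Pic⁰(Ft)^{Φ^{nm}} → Pic⁰(Ft)^{Φ^n}` are onto.

Consumed as landed: A0 (helper3, `GJ27/Frob`), A2 (helper94, `GJ27/ZCombExtra`), A5 (helper96,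
`GJ27/LMat/Final`), A7 (helper27, `GJ27/Grp`) through `GJ27/Count/Primary`.
-/
import Mathlib
import Fermat.Agent.GJ27.Vocab
import Fermat.Agent.GJ27.Frob.OfFrobStr
import Fermat.Agent.GJ27.ZCombExtra
import Fermat.Agent.GJ27.LMat.Final
import Fermat.Agent.GJ27.Count.Primary

set_option autoImplicit false
set_option linter.unusedSectionVars false

noncomputable section

open AlgebraicCurve

namespace Fermat.Agent.GJ27.Count

open Fermat.Agent.RRh45 Fermat.Agent.GJ.J1 Fermat.Agent.GJ.S37LSpace Fermat.Agent.S24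
open Fermat.Agent.GJ27 Fermat.Agent.GJ27.Grp Fermat.Agent.GJ27.Count.Primary

universe u

section Frame

variable {p : ℕ} [hp : Fact p.Prime] {k Ft : Type*} [Field k] [Field Ft] [Algebra k Ft]
  [IsAlgClosed k] [CharP k p] [FiniteResidues k Ft] [HasPrincipalDivisors k Ft]
  [Nonempty (Place k Ft)]

/-- finiteness of the fixed places of the powers (helper3), in helper94's spelling -/
theorem hfinPerm (Φ : FrobStr p k Ft) (hdeg : ∀ Q : Place k Ft, Q.deg = 1) :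
    ∀ j, 0 < j → (Function.fixedPoints ⇑(Φ.perm ^ j)).Finite :=
  fun j hj => Φ.finite_perm_pow_fixed hp.out.one_lt hdeg j hj

/-- **A4 for one Frobenius structure** (the binder owed by GJ27-ZRR). -/
def LPolyStmt (Φ : FrobStr p k Ft) (g : ℕ)
    (hfin : ∀ j, 0 < j → (Function.fixedPoints ⇑(Φ.perm ^ j)).Finite) : Prop :=
  ∃ L : Polynomial ℤ,
    (1 - PowerSeries.X) * (1 - PowerSeries.C (Φ.q : ℤ) * PowerSeries.X) * ZComb.Z Φ.perm hfin =
      (L : PowerSeries ℤ) ∧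
    L.eval 1 = (Nat.card {x : Pic0 k Ft // Φ.semiAut • x = x} : ℤ) ∧
    L.natDegree = 2 * g ∧ L.leadingCoeff = (Φ.q : ℤ) ^ g

/-- **A6 for one Frobenius structure** (the binder owed by GJ27-NORM). -/
def NormStmt (Φ : FrobStr p k Ft) : Prop :=
  ∀ n m : ℕ, 0 < n → 0 < m → ∀ x : Pic0 k Ft, (Φ.semiAut ^ n) • x = x →
    ∃ y : Pic0 k Ft, (Φ.semiAut ^ (n * m)) • y = y ∧
      ∑ i ∈ Finset.range m, (Φ.semiAut ^ (n * i)) • y = x

/-- the Frobenius as an additive endomorphism of `Pic⁰` -/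
def frobEnd (Φ : FrobStr p k Ft) : AddMonoid.End (Pic0 k Ft) :=
  DistribMulAction.toAddMonoidEnd (SemilinearAut k Ft) (Pic0 k Ft) Φ.semiAut

theorem frobEnd_pow_apply (Φ : FrobStr p k Ft) (n : ℕ) (x : Pic0 k Ft) :
    (frobEnd Φ ^ n) x = (Φ.semiAut ^ n) • x := by
  rw [frobEnd, ← map_pow]
  rfl

theorem mem_fixPow_frobEnd (Φ : FrobStr p k Ft) (n : ℕ) (x : Pic0 k Ft) :
    x ∈ fixPow (frobEnd Φ) n ↔ (Φ.semiAut ^ n) • x = x := by
  rw [mem_fixPow, frobEnd_pow_apply]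

theorem normEnd_frobEnd_apply (Φ : FrobStr p k Ft) (n m : ℕ) (y : Pic0 k Ft) :
    normEnd (frobEnd Φ) n m y = ∑ i ∈ Finset.range m, (Φ.semiAut ^ (n * i)) • y := by
  rw [normEnd_apply]
  exact Finset.sum_congr rfl fun i _ => frobEnd_pow_apply Φ _ y

/-- the class number of the `n`-th power structure -/
theorem card_fixed_pow (Φ : FrobStr p k Ft) (n : ℕ) (hn : 0 < n) :
    Nat.card {x : Pic0 k Ft // (Φ.pow n hn).semiAut • x = x} =
      Nat.card (fixPow (frobEnd Φ) n) := by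
  refine Nat.card_congr (Equiv.subtypeEquivRight fun x => ?_)
  rw [FrobStr.pow_semiAut, mem_fixPow_frobEnd]

theorem finite_fixPow_frobEnd (Φ : FrobStr p k Ft) (hdeg : ∀ Q : Place k Ft, Q.deg = 1)
    (n : ℕ) (hn : 0 < n) : (fixPow (frobEnd Φ) n : Set (Pic0 k Ft)).Finite := by
  refine (Φ.finite_fixed_pic0_pow hp.out.one_lt hdeg n hn).subset fun x hx => ?_
  exact (mem_fixPow_frobEnd Φ n x).mp hx

/-- `Pic0.torsion` in helper27's spelling -/
theorem torsion_eq_tors (ℓ n : ℕ) : Pic0.torsion k Ft (ℓ ^ n) = tors (Pic0 k Ft) ℓ n := by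
  ext x
  rw [Pic0.mem_torsion, mem_tors, natCast_zsmul]

/-- the zeta series of the `n`-th power structure is the zeta series of `τ ^ n` -/
theorem Z_pow_eq (Φ : FrobStr p k Ft) (hdeg : ∀ Q : Place k Ft, Q.deg = 1) (n : ℕ) (hn : 0 < n) :
    ZComb.Z (Φ.pow n hn).perm (hfinPerm (Φ.pow n hn) hdeg) =
      ZComb.Z (Φ.perm ^ n) (ZComb.hfin_pow Φ.perm (hfinPerm Φ hdeg) hn) := by
  have key : ∀ (τ' : Equiv.Perm (Place k Ft)) (h' : ∀ j, 0 < j → (Function.fixedPoints ⇑(τ' ^ j)).Finite)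
      (h'' : ∀ j, 0 < j → (Function.fixedPoints ⇑((Φ.perm ^ n) ^ j)).Finite),
      τ' = Φ.perm ^ n → ZComb.Z τ' h' = ZComb.Z (Φ.perm ^ n) h'' := by
    rintro _ _ _ rfl
    rfl
  exact key _ _ _ (Φ.perm_pow n hn)

/-- **A8, in the frame.** -/
theorem card_torsion_of_nodes (Φ : FrobStr p k Ft) (g : ℕ)
    (hdeg : ∀ Q : Place k Ft, Q.deg = 1)
    (hA4 : ∀ (n : ℕ) (hn : 0 < n), LPolyStmt (Φ.pow n hn) g (hfinPerm (Φ.pow n hn) hdeg))
    (hA6 : NormStmt Φ)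
    (ℓ : ℕ) [hℓ : Fact ℓ.Prime] (hℓp : ℓ ≠ p) (n : ℕ) :
    Nat.card (Pic0.torsion k Ft (ℓ ^ n)) = ℓ ^ (2 * g * n) := by
  classical
  set τ := Φ.perm with hτ
  have hfinτ := hfinPerm Φ hdeg
  choose L hL1 hL2 hL3 hL4 using hA4
  set Ls : ℕ → Polynomial ℤ := fun n => if hn : 0 < n then L n hn else 0 with hLs
  have hLs_pos : ∀ n (hn : 0 < n), Ls n = L n hn := fun n hn => by rw [hLs]; exact dif_pos hn
  set N : ℕ → ℤ := fun j => (ZComb.Nfix τ hfinτ j : ℤ) with hN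
  -- the class numbers
  have hcardpos : ∀ n, 0 < n → 0 < Nat.card (fixPow (frobEnd Φ) n) := fun n hn => by
    have : Finite (fixPow (frobEnd Φ) n) := finite_fixPow_frobEnd Φ hdeg n hn
    exact Nat.card_pos
  have heval : ∀ n, 0 < n → (Ls n).eval 1 = (Nat.card (fixPow (frobEnd Φ) n) : ℤ) := fun n hn => by
    rw [hLs_pos n hn, hL2 n hn, card_fixed_pow]
  -- the zeta equations
  have hzeta : ∀ n (hn : 0 < n),
      (1 - PowerSeries.X) * (1 - PowerSeries.C ((Φ.q : ℤ) ^ n) * PowerSeries.X) *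
        ZComb.Z (τ ^ n) (ZComb.hfin_pow τ hfinτ hn) = (Ls n : PowerSeries ℤ) := fun n hn => by
    have h := hL1 n hn
    rw [Z_pow_eq Φ hdeg n hn] at h
    have hq : (((Φ.pow n hn).q : ℕ) : ℤ) = (Φ.q : ℤ) ^ n := by
      rw [FrobStr.q, FrobStr.q, FrobStr.pow_f, pow_mul, Nat.cast_pow, Nat.cast_pow]
    rw [hq] at h
    rw [hLs_pos n hn]
    exact h
  have hfam : LMat.Final.ZetaFamily (Φ.q : ℤ) N Ls := by
    refine ⟨fun n hn => ?_, fun n hn => ⟨ZComb.Z (τ ^ n) (ZComb.hfin_pow τ hfinτ hn), hzeta n hn, ?_⟩⟩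
    · have h := congrArg PowerSeries.constantCoeff (hzeta n hn)
      rw [map_mul, map_mul, ZComb.constantCoeff_Z] at h
      simp at h
      rw [← h]
    · exact ZComb.X_mul_derivative_Z_pow τ hfinτ hn
  have hne : ∀ n, 1 ≤ n → (Ls n).eval 1 ≠ 0 := fun n hn => by
    rw [heval n hn]
    exact_mod_cast (hcardpos n hn).ne'
  have hlead : ¬ (ℓ : ℤ) ∣ (Ls 1).leadingCoeff := by
    rw [hLs_pos 1 one_pos, hL4 1 one_pos, FrobStr.q, ← Nat.cast_pow, Int.natCast_dvd_natCast,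
      ← pow_mul]
    intro hdvd
    have h1 := hℓ.out.dvd_of_dvd_pow hdvd
    exact hℓp ((Nat.prime_dvd_prime_iff_eq hℓ.out hp.out).mp h1)
  obtain ⟨m₀, hm₀, hgrow⟩ := hfam.growth hne hℓ.out hlead
  have hdeg1 : (Ls 1).natDegree = 2 * g := by rw [hLs_pos 1 one_pos, hL3 1 one_pos]
  rw [torsion_eq_tors]
  refine card_tors_of_growth ℓ (frobEnd Φ) m₀ (padicValNat ℓ (Nat.card (fixPow (frobEnd Φ) m₀)))
    (2 * g) hm₀ ?_ (finite_fixPow_frobEnd Φ hdeg) ?_ ?_ n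
  · intro x
    obtain ⟨n, hn, hx⟩ := Φ.exists_pow_smul_pic0_eq x
    exact ⟨n, hn, (mem_fixPow_frobEnd Φ n x).mpr hx⟩
  · intro m j hm hcop
    have hndvd : ¬ ℓ ∣ m := by
      intro hdvd
      exact hℓ.out.one_lt.ne' (Nat.eq_one_of_dvd_coprimes hcop hdvd (dvd_refl ℓ))
    have h := hgrow m hndvd j
    have hpos : 0 < m₀ * (m * ℓ ^ j) :=
      Nat.mul_pos hm₀ (Nat.mul_pos hm (pow_pos hℓ.out.pos _))
    rw [heval _ hpos, heval _ hm₀, padicValInt.of_nat, padicValInt.of_nat, hdeg1] at h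
    rw [Nat.factorization_def _ hℓ.out, mul_assoc]
    exact_mod_cast h
  · intro n m hn hm x hx
    obtain ⟨y, hy, hyx⟩ := hA6 n m hn hm x ((mem_fixPow_frobEnd Φ n x).mp hx)
    exact ⟨y, (mem_fixPow_frobEnd Φ _ y).mpr hy, by rw [normEnd_frobEnd_apply]; exact hyx⟩

end Frame

/-- **A8 = GJ27-COUNT**: `CountStmt` from the frame statements of A4 and A6. -/
theorem countStmt_of_nodes
    (hA4 : ∀ (p : ℕ) [Fact p.Prime] (k Ft : Type u) [Field k] [Field Ft] [Algebra k Ft]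
      [IsAlgClosed k] [CharP k p] [FiniteResidues k Ft] [HasPrincipalDivisors k Ft]
      [Nonempty (Place k Ft)] (Φ : FrobStr p k Ft) (x₀ : Ft) [IsGen k x₀] (g : ℕ) (c : ℤ)
      (hdeg : ∀ Q : Place k Ft, Q.deg = 1)
      (_ : ∀ E : Divisor k Ft, c ≤ Divisor.degree E →
        (Module.finrank k (riemannRochSpace E) : ℤ) = Divisor.degree E + 1 - g),
      LPolyStmt Φ g (hfinPerm Φ hdeg))
    (hA6 : ∀ (p : ℕ) [Fact p.Prime] (k Ft : Type u) [Field k] [Field Ft] [Algebra k Ft]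
      [IsAlgClosed k] [CharP k p] [FiniteResidues k Ft] [HasPrincipalDivisors k Ft]
      [Nonempty (Place k Ft)] (Φ : FrobStr p k Ft) (x₀ : Ft) [IsGen k x₀] (g : ℕ) (c : ℤ)
      (_ : ∀ Q : Place k Ft, Q.deg = 1)
      (_ : ∀ E : Divisor k Ft, c ≤ Divisor.degree E →
        (Module.finrank k (riemannRochSpace E) : ℤ) = Divisor.degree E + 1 - g),
      NormStmt Φ) :
    CountStmt.{u} := by
  intro p _ k Ft _ _ _ _ _ _ _ _ Φ x₀ _ g c hdeg hRiem ℓ _ hℓp n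
  exact card_torsion_of_nodes Φ g hdeg
    (fun m hm => hA4 p k Ft (Φ.pow m hm) x₀ g c hdeg hRiem)
    (hA6 p k Ft Φ x₀ g c hdeg hRiem) ℓ hℓp n

end Fermat.Agent.GJ27.Count
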