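/-
GATE-J27 (S27) / A8 = GJ27-COUNT, the assembly, second form (helper47).

Same as `GJ27/Count/Contract.lean`, but the A4 binder `LPolyStmt Φ g _` is only asked for Frobenius
structures `Φ` WITH AN INVARIANT PLACE (`#Cl_d = h` needs an invariant divisor of degree one): the
count does not depend on `Φ`, so we first replace `Φ` by a power fixing one place
(helper3's `exists_fixed_place`); all the further powers fix it too.
-/
import Mathlib
import Fermat.Agent.GJ27.Count.Contract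

set_option autoImplicit false
set_option linter.unusedSectionVars false

noncomputable section

open AlgebraicCurve

namespace Fermat.Agent.GJ27.Count

open Fermat.Agent.RRh45 Fermat.Agent.GJ.J1 Fermat.Agent.GJ.S37LSpace Fermat.Agent.S24
open Fermat.Agent.GJ27

universe u

section Frame

variable {p : ℕ} [hp : Fact p.Prime] {k Ft : Type*} [Field k] [Field Ft] [Algebra k Ft]
  [IsAlgClosed k] [CharP k p] [FiniteResidues k Ft] [HasPrincipalDivisors k Ft]
  [Nonempty (Place k Ft)]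

theorem pow_smul_place_eq {G : SemilinearAut k Ft} {O : Place k Ft} (h : G • O = O) (m : ℕ) :
    (G ^ m) • O = O := by
  induction m with
  | zero => rw [pow_zero, one_smul]
  | succ m ih => rw [pow_succ, mul_smul, h, ih]

/-- **A8 in the frame, second form**: `LPolyStmt` only for structures with an invariant place. -/
theorem card_torsion_of_nodes' (Φ : FrobStr p k Ft) (g : ℕ)
    (hdeg : ∀ Q : Place k Ft, Q.deg = 1)
    (hA4 : ∀ (Φ' : FrobStr p k Ft) (O : Place k Ft), Φ'.semiAut • O = O →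
      LPolyStmt Φ' g (hfinPerm Φ' hdeg))
    (hA6 : ∀ Φ' : FrobStr p k Ft, NormStmt Φ')
    (ℓ : ℕ) [hℓ : Fact ℓ.Prime] (hℓp : ℓ ≠ p) (n : ℕ) :
    Nat.card (Pic0.torsion k Ft (ℓ ^ n)) = ℓ ^ (2 * g * n) := by
  obtain ⟨n₀, hn₀, O, hO⟩ := Φ.exists_fixed_place
  refine card_torsion_of_nodes (Φ.pow n₀ hn₀) g hdeg (fun m hm => hA4 _ O ?_) (hA6 _) ℓ hℓp n
  rw [FrobStr.pow_semiAut]
  exact pow_smul_place_eq hO m

end Frame

/-- **A8 = GJ27-COUNT, second form.** -/
theorem countStmt_of_nodes'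
    (hA4 : ∀ (p : ℕ) [Fact p.Prime] (k Ft : Type u) [Field k] [Field Ft] [Algebra k Ft]
      [IsAlgClosed k] [CharP k p] [FiniteResidues k Ft] [HasPrincipalDivisors k Ft]
      [Nonempty (Place k Ft)] (Φ : FrobStr p k Ft) (x₀ : Ft) [IsGen k x₀] (g : ℕ) (c : ℤ)
      (hdeg : ∀ Q : Place k Ft, Q.deg = 1)
      (_ : ∀ E : Divisor k Ft, c ≤ Divisor.degree E →
        (Module.finrank k (riemannRochSpace E) : ℤ) = Divisor.degree E + 1 - g)
      (O : Place k Ft) (_ : Φ.semiAut • O = O),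
      LPolyStmt Φ g (hfinPerm Φ hdeg))
    (hA6 : ∀ (p : ℕ) [Fact p.Prime] (k Ft : Type u) [Field k] [Field Ft] [Algebra k Ft]
      [IsAlgClosed k] [CharP k p] [FiniteResidues k Ft] [HasPrincipalDivisors k Ft]
      [Nonempty (Place k Ft)] (Φ : FrobStr p k Ft) (x₀ : Ft) [IsGen k x₀] (g : ℕ) (c : ℤ)
      (_ : ∀ Q : Place k Ft, Q.deg = 1)
      (_ : ∀ E : Divisor k Ft, c ≤ Divisor.degree E →
        (Module.finrank k (riemannRochSpace E) : ℤ) = Divisor.degree E + 1 - g),
      NormStmt Φ) :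
    CountStmt.{u} := by
  intro p _ k Ft _ _ _ _ _ _ _ _ Φ x₀ _ g c hdeg hRiem ℓ _ hℓp n
  exact card_torsion_of_nodes' Φ g hdeg
    (fun Φ' O hO => hA4 p k Ft Φ' x₀ g c hdeg hRiem O hO)
    (fun Φ' => hA6 p k Ft Φ' x₀ g c hdeg hRiem) ℓ hℓp n

end Fermat.Agent.GJ27.Count
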