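/-
GATE-J27 (S27) / A4 frame plug = GJ27-ZRR-FRAME (helper47): the binder `LPolyStmt` of
`GJ27/Count/Contract.lean` for a Frobenius structure `Φ` with an invariant place `O`.

* `card_fibre_mul`       : `#{E ≥ 0 invariant, E ∼ D} (q − 1) = q^ℓ(D) − 1` on helper94's `invEffFin`
                           (helper68 `card_filter_invEffFin` + helper56 `card_invEffSet_mul_int`);
* `card_invEffFin_mul`   : PARTITION `A_d (q − 1) = Σ_{x ∈ Pic⁰^Φ} (q^ℓ(D_x + d O) − 1)`, `D_x` an
                           invariant representative (helper56 `exists_invariant_rep`);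
* `hst`, `htop`          : the Riemann–Roch values (helper90 `RRDual/Duality`);
* `lPolyStmt`            : helper1's `ZRR.exists_lPolynomial` ⟹ `LPolyStmt Φ gen hfin`.
-/
import Mathlib
import Fermat.Agent.GJ27.Count.Contract2
import Fermat.Agent.GJ27.Norm.Frame
import Fermat.Agent.GJ27.Desc.InvEff
import Fermat.Agent.GJ27.Desc.Cl0
import Fermat.Agent.GJ27.RRDual.Duality
import Fermat.Agent.GJ27.ZRR.Abstract
import Fermat.Agent.GH.G6.Family
import Fermat.Agent.GJ27.Frob.PermDiv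

set_option autoImplicit false
set_option linter.unusedSectionVars false

noncomputable section

open AlgebraicCurve

namespace Fermat.Agent.GJ27.Count.LPoly

open Fermat.Agent.RRh45 Fermat.Agent.S24 Fermat.Agent.GJ27 Fermat.Agent.GJ27.Norm.Frame
open Fermat.Agent.GJ27.Count

variable {p : ℕ} [hp : Fact p.Prime] {k Ft : Type*} [Field k] [Field Ft] [Algebra k Ft]
  [IsAlgClosed k] [CharP k p] [FiniteResidues k Ft] [HasPrincipalDivisors k Ft]
  [Nonempty (Place k Ft)]

variable (Φ : FrobStr p k Ft) (hdeg : ∀ Q : Place k Ft, Q.deg = 1)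
  (hfin : ∀ j, 0 < j → (Function.fixedPoints ⇑(Φ.perm ^ j)).Finite)

/-! ### the fibres -/

open Classical in
/-- the invariant effective divisors of degree `d` linearly equivalent to `D` -/
def fibre (D : Divisor k Ft) (d : ℕ) : Finset (Place k Ft →₀ ℕ) :=
  (ZComb.invEffFin Φ.perm hfin d).filter
    fun E => castZ E - D ∈ Divisor.principal (K := k) (F := Ft)

open Classical in
theorem mem_fibre {D : Divisor k Ft} {d : ℕ} {E : Place k Ft →₀ ℕ} :
    E ∈ fibre Φ hfin D d ↔ E ∈ ZComb.invEffFin Φ.perm hfin d ∧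
      castZ E - D ∈ Divisor.principal (K := k) (F := Ft) := by
  unfold fibre
  rw [Finset.mem_filter]

include hdeg in
theorem card_fibre_mul (D : Divisor k Ft) (hD : Φ.semiAut • D = D) (d : ℕ)
    (hd : Divisor.degree D = (d : ℤ)) :
    ((fibre Φ hfin D d).card : ℤ) * ((Φ.q : ℤ) - 1) =
      (Φ.q : ℤ) ^ Module.finrank k (riemannRochSpace D) - 1 := by
  have h1 : (fibre Φ hfin D d).card = Nat.card {E : Divisor k Ft //
      0 ≤ E ∧ Φ.semiAut • E = E ∧ E - D ∈ Divisor.principal (K := k) (F := Ft)} :=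
    card_filter_invEffFin Φ.semiAut hdeg hfin D d hd
  have h2 := Desc.card_invEffSet_mul_int Φ.frobData D hD
  have hq : (Φ.q : ℤ) = (p : ℤ) ^ Φ.f := by rw [FrobStr.q, Nat.cast_pow]
  rw [h1, hq]
  exact h2

/-! ### the invariant classes and their representatives -/

/-- the invariant classes -/
abbrev Cl0 : Type _ := {x : Pic0 k Ft // Φ.semiAut • x = x}

include hdeg in
theorem finite_Cl0 : Finite (Cl0 Φ) := by
  have h := Φ.finite_fixed_pic0_pow hp.out.one_lt hdeg 1 one_pos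
  simp only [pow_one] at h
  exact Set.finite_coe_iff.mpr h

/-- an invariant representative of an invariant class -/
def rep (x : Cl0 Φ) : Divisor.degZero (K := k) (F := Ft) :=
  (Desc.exists_invariant_rep Φ.frobData x.1 x.2).choose

theorem smul_rep (x : Cl0 Φ) : Φ.semiAut • (rep Φ x : Divisor k Ft) = rep Φ x :=
  (Desc.exists_invariant_rep Φ.frobData x.1 x.2).choose_spec.1

theorem mk_rep (x : Cl0 Φ) : Pic0.mk (rep Φ x) = x.1 :=
  (Desc.exists_invariant_rep Φ.frobData x.1 x.2).choose_spec.2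

variable (O : Place k Ft)

/-- the representative of the class `x + d [O]` of degree `d` -/
def Dx (x : Cl0 Φ) (d : ℕ) : Divisor k Ft := (rep Φ x : Divisor k Ft) + Finsupp.single O (d : ℤ)

include hdeg in
theorem degree_Dx (x : Cl0 Φ) (d : ℕ) : Divisor.degree (Dx Φ O x d) = (d : ℤ) := by
  rw [Dx, map_add, Divisor.degree_single, hdeg O, Nat.cast_one, mul_one,
    Divisor.mem_degZero.mp (rep Φ x).2, zero_add]

theorem smul_Dx (hO : Φ.semiAut • O = O) (x : Cl0 Φ) (d : ℕ) :
    Φ.semiAut • Dx Φ O x d = Dx Φ O x d := by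
  rw [Dx, smul_add, smul_rep, SemilinearAut.smul_single, hO]

theorem rep_sub_rep_mem_principal_iff (x y : Cl0 Φ) :
    (rep Φ x : Divisor k Ft) - rep Φ y ∈ Divisor.principal (K := k) (F := Ft) ↔ x = y := by
  rw [← mk_eq_mk_iff, mk_rep, mk_rep]
  exact Subtype.ext_iff.symm

/-! ### the partition -/

include hdeg in
open Classical in
theorem invEffFin_eq_biUnion (hO : Φ.semiAut • O = O) [Fintype (Cl0 Φ)] (d : ℕ) :
    ZComb.invEffFin Φ.perm hfin d =
      Finset.univ.biUnion fun x : Cl0 Φ => fibre Φ hfin (Dx Φ O x d) d := by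
  ext E
  rw [Finset.mem_biUnion]
  constructor
  · intro hE
    have hE' := (ZComb.mem_invEffFin Φ.perm hfin).mp hE
    have hgE : Φ.semiAut • castZ E = castZ E := (isInv_iff_smul_castZ Φ.semiAut E).mp hE'.1
    have hdeg0 : castZ E - Finsupp.single O (d : ℤ) ∈ Divisor.degZero (K := k) (F := Ft) := by
      rw [Divisor.mem_degZero, map_sub, degree_castZ hdeg, hE'.2, Divisor.degree_single, hdeg O,
        Nat.cast_one, mul_one, sub_self]
    have hfix : Φ.semiAut • (castZ E - Finsupp.single O (d : ℤ)) =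
        castZ E - Finsupp.single O (d : ℤ) := by
      rw [smul_sub, hgE, SemilinearAut.smul_single, hO]
    obtain ⟨D₁, hD₁⟩ : ∃ D₁ : Divisor.degZero (K := k) (F := Ft),
        (D₁ : Divisor k Ft) = castZ E - Finsupp.single O (d : ℤ) := ⟨⟨_, hdeg0⟩, rfl⟩
    have hx : Φ.semiAut • Pic0.mk D₁ = Pic0.mk D₁ :=
      smul_mk_eq_of_smul_eq Φ.semiAut D₁ (by rw [hD₁]; exact hfix)
    refine ⟨⟨Pic0.mk D₁, hx⟩, Finset.mem_univ _, ?_⟩
    rw [mem_fibre]
    refine ⟨hE, ?_⟩
    have h1 : (rep Φ ⟨Pic0.mk D₁, hx⟩ : Divisor k Ft) - (D₁ : Divisor k Ft) ∈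
        Divisor.principal (K := k) (F := Ft) := by
      rw [← mk_eq_mk_iff, mk_rep]
    have h2 : castZ E - Dx Φ O ⟨Pic0.mk D₁, hx⟩ d =
        -((rep Φ ⟨Pic0.mk D₁, hx⟩ : Divisor k Ft) - (D₁ : Divisor k Ft)) := by
      rw [Dx, hD₁, neg_sub, sub_add_eq_sub_sub_swap]
    rw [h2]
    exact neg_mem h1
  · rintro ⟨x, -, hx⟩
    exact (mem_fibre Φ hfin).mp hx |>.1

open Classical in
theorem fibre_disjoint (d : ℕ) {x y : Cl0 Φ} (hxy : x ≠ y) :
    Disjoint (fibre Φ hfin (Dx Φ O x d) d) (fibre Φ hfin (Dx Φ O y d) d) := by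
  rw [Finset.disjoint_left]
  intro E hEx hEy
  have h1 := ((mem_fibre Φ hfin).mp hEx).2
  have h2 := ((mem_fibre Φ hfin).mp hEy).2
  apply hxy
  rw [← rep_sub_rep_mem_principal_iff]
  have h3 : (rep Φ x : Divisor k Ft) - rep Φ y =
      (castZ E - Dx Φ O y d) - (castZ E - Dx Φ O x d) := by
    rw [Dx, Dx]
    abel
  rw [h3]
  exact sub_mem h2 h1

include hdeg in
open Classical in
/-- **the partition of the invariant effective divisors of degree `d` by their classes** -/
theorem card_invEffFin_mul (hO : Φ.semiAut • O = O) [Fintype (Cl0 Φ)] (d : ℕ) :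
    ((ZComb.invEffFin Φ.perm hfin d).card : ℤ) * ((Φ.q : ℤ) - 1) =
      ∑ x : Cl0 Φ, ((Φ.q : ℤ) ^ Module.finrank k (riemannRochSpace (Dx Φ O x d)) - 1) := by
  rw [invEffFin_eq_biUnion Φ hdeg hfin O hO d,
    Finset.card_biUnion (fun x _ y _ hxy => fibre_disjoint Φ hfin O d hxy), Nat.cast_sum,
    Finset.sum_mul]
  exact Finset.sum_congr rfl fun x _ =>
    card_fibre_mul Φ hdeg hfin (Dx Φ O x d) (smul_Dx Φ O hO x d) d (degree_Dx Φ hdeg O x d)

/-! ### the Riemann–Roch values -/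

section RR

variable (gen : ℕ) (c : ℤ)
  (hRiem : ∀ E : Divisor k Ft, c ≤ Divisor.degree E →
    (Module.finrank k (riemannRochSpace E) : ℤ) = Divisor.degree E + 1 - gen)

include hdeg O in
theorem h0 : Module.finrank k (riemannRochSpace (0 : Divisor k Ft)) = 1 :=
  Fermat.Agent.GH.G6.finrank_riemannRochSpace_zero O (hdeg O)

include hdeg O hRiem in
theorem genus_eq : genusFF k Ft = gen := by
  have h := RRDual.genusFF_eq_of_riemann (h0 hdeg O) (g := (gen : ℤ)) (c := c) hRiem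
  exact_mod_cast h

include hdeg hRiem in
/-- the stable range -/
theorem hst (hO : Φ.semiAut • O = O) [Fintype (Cl0 Φ)] (d : ℕ) (hd : 2 * gen ≤ d + 1) :
    ((Φ.q : ℤ) - 1) * ((ZComb.invEffFin Φ.perm hfin d).card : ℤ) =
      (Fintype.card (Cl0 Φ) : ℤ) * ((Φ.q : ℤ) ^ (d + 1 - gen) - 1) := by
  rw [mul_comm, card_invEffFin_mul Φ hdeg hfin O hO d]
  have hl : ∀ x : Cl0 Φ, Module.finrank k (riemannRochSpace (Dx Φ O x d)) = d + 1 - gen := by
    intro x
    have hg := genus_eq hdeg O gen c hRiem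
    have h := RRDual.finrank_eq_of_le_degree (h0 hdeg O) (D := Dx Φ O x d) (by
      rw [degree_Dx Φ hdeg O x d, hg]
      omega)
    rw [degree_Dx Φ hdeg O x d, hg] at h
    omega
  rw [Finset.sum_congr rfl fun x _ => by rw [hl x], Finset.sum_const, Finset.card_univ,
    nsmul_eq_mul]

include hdeg O in
/-- the canonical class is invariant -/
theorem smul_canonical_sub_mem_principal {W : Divisor k Ft} (hW : RRDual.IsCanonical W) :
    W - Φ.semiAut • W ∈ Divisor.principal (K := k) (F := Ft) := by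
  have hdW : Divisor.degree (Φ.semiAut • W) = 2 * (genusFF k Ft : ℤ) - 2 := by
    rw [SemilinearAut.degree_smul, RRDual.degree_canonical (h0 hdeg O) hW]
  have h := RRDual.finrank_of_degree_eq (h0 hdeg O) hW hdW
  have h1 : Module.finrank k (riemannRochSpace (Φ.semiAut • W)) = genusFF k Ft := by
    rw [Fermat.Agent.GH.Gal.finrank_riemannRochSpace_smul, RRDual.finrank_canonical hW]
  rw [h1] at h
  by_contra hne
  rw [Divisor.mem_principal] at hne
  rw [if_neg hne] at h
  omega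

include hdeg hRiem in
/-- the top degree `2 gen − 2` -/
theorem htop (hO : Φ.semiAut • O = O) [Fintype (Cl0 Φ)] (hgen : 1 ≤ gen) :
    ((Φ.q : ℤ) - 1) * ((ZComb.invEffFin Φ.perm hfin (2 * gen - 2)).card : ℤ) =
      ((Fintype.card (Cl0 Φ) : ℤ) - 1) * ((Φ.q : ℤ) ^ (gen - 1) - 1) + ((Φ.q : ℤ) ^ gen - 1) := by
  classical
  rw [mul_comm, card_invEffFin_mul Φ hdeg hfin O hO (2 * gen - 2)]
  have hg := genus_eq hdeg O gen c hRiem
  obtain ⟨W, hW⟩ := RRDual.exists_canonical (K := k) (F := Ft) (h0 hdeg O)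
  set d := 2 * gen - 2 with hd
  have hdW : Divisor.degree W = (d : ℤ) := by
    rw [RRDual.degree_canonical (h0 hdeg O) hW, hg, hd]
    omega
  -- the values
  have hl : ∀ x : Cl0 Φ, Module.finrank k (riemannRochSpace (Dx Φ O x d)) =
      gen - 1 + (if Divisor.IsPrincipal (W - Dx Φ O x d) then 1 else 0) := by
    intro x
    have h := RRDual.finrank_of_degree_eq (h0 hdeg O) hW (D := Dx Φ O x d) (by
      rw [degree_Dx Φ hdeg O x d, hg, hd]
      omega)
    rw [hg] at h
    split_ifs at h ⊢ <;> omega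
  -- the canonical class
  have hdeg0 : W - Finsupp.single O (d : ℤ) ∈ Divisor.degZero (K := k) (F := Ft) := by
    rw [Divisor.mem_degZero, map_sub, hdW, Divisor.degree_single, hdeg O, Nat.cast_one, mul_one,
      sub_self]
  obtain ⟨D₁, hD₁⟩ : ∃ D₁ : Divisor.degZero (K := k) (F := Ft),
      (D₁ : Divisor k Ft) = W - Finsupp.single O (d : ℤ) := ⟨⟨_, hdeg0⟩, rfl⟩
  have hxW : Φ.semiAut • Pic0.mk D₁ = Pic0.mk D₁ := by
    rw [SemilinearAut.pic0_smul_mk, mk_eq_mk_iff, SemilinearAut.coe_degZeroSMulHom]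
    have h1 : Φ.semiAut • (D₁ : Divisor k Ft) - (D₁ : Divisor k Ft) = -(W - Φ.semiAut • W) := by
      rw [hD₁, smul_sub, SemilinearAut.smul_single, hO, neg_sub, sub_sub_sub_cancel_right]
    rw [h1]
    exact neg_mem (smul_canonical_sub_mem_principal Φ hdeg O hW)
  set xW : Cl0 Φ := ⟨Pic0.mk D₁, hxW⟩ with hxWdef
  have hiff : ∀ x : Cl0 Φ, Divisor.IsPrincipal (W - Dx Φ O x d) ↔ x = xW := by
    intro x
    have h1 : W - Dx Φ O x d = (D₁ : Divisor k Ft) - rep Φ x := by
      rw [Dx, hD₁, sub_add_eq_sub_sub_swap]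
    rw [← Divisor.mem_principal, h1, ← mk_eq_mk_iff, mk_rep]
    constructor
    · intro h
      exact Subtype.ext h.symm
    · intro h
      rw [h]
  have hl' : ∀ x : Cl0 Φ, (Φ.q : ℤ) ^ Module.finrank k (riemannRochSpace (Dx Φ O x d)) - 1 =
      if x = xW then (Φ.q : ℤ) ^ gen - 1 else (Φ.q : ℤ) ^ (gen - 1) - 1 := by
    intro x
    rw [hl x]
    by_cases hx : x = xW
    · rw [if_pos ((hiff x).mpr hx), if_pos hx]
      congr 2
      omega
    · rw [if_neg (fun h => hx ((hiff x).mp h)), if_neg hx, add_zero]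
  rw [Finset.sum_congr rfl fun x _ => hl' x, ← Finset.add_sum_erase Finset.univ _
    (Finset.mem_univ xW), if_pos rfl]
  rw [Finset.sum_congr rfl fun x hx => if_neg (Finset.ne_of_mem_erase hx), Finset.sum_const,
    Finset.card_erase_of_mem (Finset.mem_univ _), Finset.card_univ, nsmul_eq_mul]
  have hpos : 1 ≤ Fintype.card (Cl0 Φ) := Fintype.card_pos_iff.mpr ⟨xW⟩
  rw [Nat.cast_sub hpos, Nat.cast_one]
  ring

end RR

/-! ### the `L`-polynomial -/

theorem Z_eq_mk :
    ZComb.Z Φ.perm hfin =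
      PowerSeries.mk fun d => ((ZComb.invEffFin Φ.perm hfin d).card : ℤ) := by
  ext d
  rw [ZComb.coeff_Z, PowerSeries.coeff_mk]

include hdeg in
/-- **A4 = `LPolyStmt`** for a Frobenius structure with an invariant place. -/
theorem lPolyStmt (gen : ℕ) (c : ℤ)
    (hRiem : ∀ E : Divisor k Ft, c ≤ Divisor.degree E →
      (Module.finrank k (riemannRochSpace E) : ℤ) = Divisor.degree E + 1 - gen)
    (hO : Φ.semiAut • O = O) : LPolyStmt Φ gen hfin := by
  have : Finite (Cl0 Φ) := finite_Cl0 Φ hdeg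
  let _ : Fintype (Cl0 Φ) := Fintype.ofFinite _
  have hq : 2 ≤ Φ.q := by
    rw [FrobStr.q]
    calc 2 ≤ p := hp.out.two_le
      _ = p ^ 1 := (pow_one p).symm
      _ ≤ p ^ Φ.f := Nat.pow_le_pow_right hp.out.pos Φ.f_pos
  have ha0 : ((ZComb.invEffFin Φ.perm hfin 0).card : ℤ) = 1 := by
    rw [← ZComb.coeff_Z, PowerSeries.coeff_zero_eq_constantCoeff_apply, ZComb.constantCoeff_Z]
  obtain ⟨L, h1, -, h3, h4, h5, -⟩ :=
    ZRR.exists_lPolynomial (q := Φ.q) (g := gen) (h := (Fintype.card (Cl0 Φ) : ℤ))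
      (A := fun d => ((ZComb.invEffFin Φ.perm hfin d).card : ℤ)) hq ha0
      (fun d hd => hst Φ hdeg hfin O gen c hRiem hO d hd)
      (fun hgen => htop Φ hdeg hfin O gen c hRiem hO hgen)
  refine ⟨L, ?_, ?_, h4, h5⟩
  · rw [Z_eq_mk]
    exact h1
  · rw [h3, ← Nat.card_eq_fintype_card]

end Fermat.Agent.GJ27.Count.LPoly
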