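/-
GATE-J27 (S27) / A8 = GJ27-COUNT, FINAL (helper47): **`countStmt : CountStmt`** — binder 3 of
`GJ27/Top.lean : s27_of_binders` is a theorem.

`CountStmt` : over an algebraically closed field `k` of characteristic `p`, a function field `Ft / k`
with a Frobenius structure, all places of degree one and Riemann's theorem with genus `g` has
exactly `ℓ ^ (2 g n)` divisor classes of degree zero killed by `ℓ ^ n` (`ℓ ≠ p`).

Assembly (`GJ27/Count/Contract2.countStmt_of_nodes'`) of
* A4 `LPoly.lPolyStmt` (this directory; on helper1 `ZRR/Abstract`, helper56 `Desc`, helper68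
  `Norm/Frame`, helper90 `RRDual`, helper94 `ZComb`),
* A6 `Norm.Final.norm_surjective_frobStr` (helper63, helper68, helper3, helper56),
with A0 (helper3), A2 (helper94), A5 (helper96), A7 (helper27) consumed inside `Contract`.
-/
import Mathlib
import Fermat.Agent.GJ27.Count.LPoly
import Fermat.Agent.GJ27.Norm.Final

set_option autoImplicit false

noncomputable section

open AlgebraicCurve

namespace Fermat.Agent.GJ27.Count

open Fermat.Agent.RRh45 Fermat.Agent.GJ.J1 Fermat.Agent.GJ.S37LSpace Fermat.Agent.S24
open Fermat.Agent.GJ27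

universe u

/-- **COUNT**: binder 3 of the S27 assembly. -/
theorem countStmt : CountStmt.{u} :=
  countStmt_of_nodes'
    (fun _ _ _ _ _ _ _ _ _ _ _ _ Φ _ _ g c hdeg hRiem O hO =>
      LPoly.lPolyStmt Φ hdeg (hfinPerm Φ hdeg) O g c hRiem hO)
    (fun _ _ _ _ _ _ _ _ _ _ _ _ Φ _ _ g c _ hRiem n m hn hm x hx =>
      Norm.Final.norm_surjective_frobStr Φ g c hRiem n m hn hm x hx)

end Fermat.Agent.GJ27.Count
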